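/-
S17 row, piece G-DIV / DER groundwork (helper800).  Mathlib + Prelude `LaurentCoeff` only.

* `extendDer` / `extendDer_algebraMap` : derivations extend along formally étale ring maps;
* `exists_derivation_eq_one` (**DER-0**, enough derivations): `K ⊆ L` fields of characteristic `0`,
  `c ∈ L` transcendental over `K` ⟹ there is a `K`-derivation `δ` of `L` with `δ c = 1`;
  `isAlgebraic_of_forall_derivation_eq_zero` : if every `K`-derivation of `L` kills `c`, then `c`
  is algebraic over `K`;
* `coeffDer δ : L((q)) →+ L((q))` (**DER-a**): the coefficientwise derivation attached to a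
  derivation `δ` of `L`: Leibniz rule `coeffDer_mul`, `coeffDer_inv`, values on constants
  `coeffDer_algebraMap`, `coeffDer_coeffMap` / `coeffDer_coeffEmb` (kills series with coefficients
  in `ker δ`, e.g. rational coefficients), `coeffDer_eq_zero_iff`, `order_le_order_coeffDer`,
  `coeffDer_mem_laurentBaseChange` (stability of `L · F₀`).
-/
import Mathlib
import Fermat.Prelude.Def_ModularCurve_LaurentCoeff

set_option autoImplicit false
set_option linter.unusedSectionVars false
set_option linter.style.haveILetI false

noncomputable section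

open scoped TensorProduct
open KaehlerDifferential HahnSeries ModularCurve

namespace Fermat.Agent.S17.H800

section Extend

variable (R S T : Type*) [CommRing R] [CommRing S] [CommRing T]
  [Algebra R S] [Algebra R T] [Algebra S T] [IsScalarTower R S T] [Algebra.FormallyEtale S T]
variable {N : Type*} [AddCommGroup N] [Module R N] [Module S N] [Module T N]
  [IsScalarTower R S N] [IsScalarTower R T N] [IsScalarTower S T N]

/-- Extension of a derivation along a formally étale ring map. -/
noncomputable def extendDer (d : Derivation R S N) : Derivation R T N :=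
  ((d.liftKaehlerDifferential.liftBaseChange T) ∘ₗ
      (tensorKaehlerEquivOfFormallyEtale R S T).symm.toLinearMap).compDer (D R T)

theorem extendDer_algebraMap (d : Derivation R S N) (s : S) :
    extendDer R S T d (algebraMap S T s) = d s := by
  simp [extendDer, tensorKaehlerEquivOfFormallyEtale_symm_D_algebraMap]

end Extend

section Field

open scoped IntermediateField.algebraAdjoinAdjoin

variable {K L : Type*} [Field K] [Field L] [Algebra K L] [CharZero K]

/-- In characteristic `0`, a field is formally étale over the polynomial subalgebra generated by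
a transcendence basis. -/
theorem formallyEtale_adjoin_of_isTranscendenceBasis {ι : Type*} {v : ι → L}
    (hv : IsTranscendenceBasis K v) :
    Algebra.FormallyEtale (Algebra.adjoin K (Set.range v)) L := by
  haveI : CharZero L := charZero_of_injective_algebraMap (algebraMap K L).injective
  haveI : Algebra.FormallyEtale (Algebra.adjoin K (Set.range v))
      (IntermediateField.adjoin K (Set.range v)) :=
    Algebra.FormallyEtale.of_isLocalization (nonZeroDivisors _)
  haveI : Algebra.IsAlgebraic (IntermediateField.adjoin K (Set.range v)) L :=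
    hv.isAlgebraic_field
  haveI : Algebra.IsSeparable (IntermediateField.adjoin K (Set.range v)) L :=
    Algebra.IsAlgebraic.isSeparable_of_perfectField
  haveI : Algebra.FormallyEtale (IntermediateField.adjoin K (Set.range v)) L :=
    Algebra.FormallyEtale.of_isSeparable _ _
  exact Algebra.FormallyEtale.comp _ (IntermediateField.adjoin K (Set.range v)) _

/-- The partial derivative with respect to one member of an algebraically independent family,
as an `L`-valued derivation of the polynomial subalgebra. -/
theorem exists_derivation_adjoin {ι : Type*} [DecidableEq ι] {v : ι → L}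
    (hv : AlgebraicIndependent K v) (i : ι) :
    ∃ d : Derivation K (Algebra.adjoin K (Set.range v)) L,
      ∀ j, d ⟨v j, Algebra.subset_adjoin (Set.mem_range_self j)⟩ = if j = i then 1 else 0 := by
  letI algSL : Algebra (MvPolynomial ι K) L := (MvPolynomial.aeval v).toAlgebra
  haveI : IsScalarTower K (MvPolynomial ι K) L :=
    IsScalarTower.of_algebraMap_eq' (MvPolynomial.aeval v).comp_algebraMap.symm
  let d₀ : Derivation K (MvPolynomial ι K) L :=
    MvPolynomial.mkDerivation K (fun j => if j = i then (1 : L) else 0)
  let e := hv.aevalEquiv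
  have hsmul : ∀ (p : MvPolynomial ι K) (x : L), p • x = MvPolynomial.aeval v p * x :=
    fun p x => rfl
  have hcoe : ∀ a : Algebra.adjoin K (Set.range v),
      MvPolynomial.aeval v (e.symm a) = (a : L) := by
    intro a
    have := hv.algebraMap_aevalEquiv (e.symm a)
    rw [AlgEquiv.apply_symm_apply] at this
    exact this.symm
  refine ⟨Derivation.mk' ((d₀ : MvPolynomial ι K →ₗ[K] L) ∘ₗ e.symm.toLinearMap) ?_, ?_⟩
  · intro a b
    simp only [LinearMap.coe_comp, Function.comp_apply, AlgEquiv.toLinearMap_apply, map_mul]
    show d₀ (e.symm a * e.symm b) = a • d₀ (e.symm b) + b • d₀ (e.symm a)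
    rw [d₀.leibniz, hsmul, hsmul, hcoe, hcoe]
    rfl
  · intro j
    show d₀ (e.symm _) = _
    have : e.symm ⟨v j, Algebra.subset_adjoin (Set.mem_range_self j)⟩ = MvPolynomial.X j := by
      rw [AlgEquiv.symm_apply_eq]
      apply Subtype.ext
      have := hv.algebraMap_aevalEquiv (MvPolynomial.X j)
      rw [MvPolynomial.aeval_X] at this
      exact this.symm
    rw [this, MvPolynomial.mkDerivation_X]

/-- **Enough derivations** (characteristic `0`): for `c ∈ L` transcendental over `K` there is
a `K`-derivation `∂` of `L` with `δ c = 1`. -/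
theorem exists_derivation_eq_one {c : L} (hc : Transcendental K c) :
    ∃ δ : Derivation K L L, δ c = 1 := by
  classical
  have hind : AlgebraicIndepOn K id ({c} : Set L) := by
    show AlgebraicIndependent K (fun x : ({c} : Set L) => id (x : L))
    rw [algebraicIndependent_singleton_iff (⟨c, rfl⟩ : ({c} : Set L))]
    exact hc
  obtain ⟨s, hcs, hs⟩ := exists_isTranscendenceBasis_superset hind
  haveI := formallyEtale_adjoin_of_isTranscendenceBasis hs
  let i : s := ⟨c, hcs rfl⟩
  obtain ⟨d, hd⟩ := exists_derivation_adjoin hs.1 i
  refine ⟨extendDer K (Algebra.adjoin K (Set.range ((↑) : s → L))) L d, ?_⟩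
  have h1 : c = algebraMap (Algebra.adjoin K (Set.range ((↑) : s → L))) L
      ⟨((↑) : s → L) i, Algebra.subset_adjoin (Set.mem_range_self i)⟩ := rfl
  rw [h1, extendDer_algebraMap, hd i, if_pos rfl]

/-- If every `K`-derivation of `L` kills `c`, then `c` is algebraic over `K` (char. `0`). -/
theorem isAlgebraic_of_forall_derivation_eq_zero {c : L}
    (h : ∀ δ : Derivation K L L, δ c = 0) : IsAlgebraic K c := by
  by_contra hc
  obtain ⟨δ, h1⟩ := exists_derivation_eq_one (K := K) (c := c) hc
  rw [h δ] at h1
  exact zero_ne_one h1

end Field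


section CoeffDer

variable {K L : Type*} [CommRing K] [CommRing L] [Algebra K L]

/-- Coefficientwise application of a derivation to a Laurent series. -/
def coeffDerFun (δ : Derivation K L L) (f : LaurentSeries L) : LaurentSeries L :=
  f.map (δ : L →+ L)

@[simp]
theorem coeffDerFun_coeff (δ : Derivation K L L) (f : LaurentSeries L) (n : ℤ) :
    (coeffDerFun δ f).coeff n = δ (f.coeff n) := rfl

theorem support_coeffDerFun_subset (δ : Derivation K L L) (f : LaurentSeries L) :
    (coeffDerFun δ f).support ⊆ f.support := by
  intro n hn
  rw [HahnSeries.mem_support] at hn ⊢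
  intro h0
  apply hn
  rw [coeffDerFun_coeff, h0, map_zero]

theorem coeffDerFun_add (δ : Derivation K L L) (f g : LaurentSeries L) :
    coeffDerFun δ (f + g) = coeffDerFun δ f + coeffDerFun δ g := by
  ext n
  simp

theorem coeffDerFun_mul (δ : Derivation K L L) (f g : LaurentSeries L) :
    coeffDerFun δ (f * g) = f * coeffDerFun δ g + g * coeffDerFun δ f := by
  ext n
  rw [coeffDerFun_coeff, HahnSeries.coeff_add, HahnSeries.coeff_mul,
    HahnSeries.coeff_mul_right' g.isPWO_support (support_coeffDerFun_subset δ g),
    mul_comm g, HahnSeries.coeff_mul_left' f.isPWO_support (support_coeffDerFun_subset δ f),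
    map_sum, ← Finset.sum_add_distrib]
  refine Finset.sum_congr rfl fun ij _ => ?_
  rw [δ.leibniz, coeffDerFun_coeff, coeffDerFun_coeff, smul_eq_mul, smul_eq_mul]
  ring

/-- The coefficientwise derivation of `L((q))` attached to a derivation of `L`
(as an additive map; Leibniz rule: `coeffDer_mul`). -/
def coeffDer (δ : Derivation K L L) : LaurentSeries L →+ LaurentSeries L where
  toFun := coeffDerFun δ
  map_zero' := by ext n; simp
  map_add' := coeffDerFun_add δ

theorem coeffDer_apply (δ : Derivation K L L) (f : LaurentSeries L) :
    coeffDer δ f = coeffDerFun δ f := rfl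

@[simp]
theorem coeffDer_coeff (δ : Derivation K L L) (f : LaurentSeries L) (n : ℤ) :
    (coeffDer δ f).coeff n = δ (f.coeff n) := rfl

/-- Leibniz rule. -/
theorem coeffDer_mul (δ : Derivation K L L) (f g : LaurentSeries L) :
    coeffDer δ (f * g) = f * coeffDer δ g + g * coeffDer δ f :=
  coeffDerFun_mul δ f g

theorem coeffDer_one (δ : Derivation K L L) : coeffDer δ (1 : LaurentSeries L) = 0 := by
  have h := coeffDer_mul δ 1 1
  rw [mul_one, one_mul] at h
  have h2 : coeffDer δ (1 : LaurentSeries L) + coeffDer δ 1 = coeffDer δ 1 + 0 := by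
    rw [add_zero]; exact h.symm
  exact add_left_cancel h2

theorem coeffDer_eq_zero_iff (δ : Derivation K L L) (f : LaurentSeries L) :
    coeffDer δ f = 0 ↔ ∀ n, δ (f.coeff n) = 0 := by
  constructor
  · intro h n
    rw [← coeffDer_coeff, h, HahnSeries.coeff_zero]
  · intro h
    ext n
    rw [coeffDer_coeff, h, HahnSeries.coeff_zero]

theorem coeffDer_single (δ : Derivation K L L) (n : ℤ) (c : L) :
    coeffDer δ (HahnSeries.single n c) = HahnSeries.single n (δ c) := by
  ext m
  rcases eq_or_ne m n with rfl | hm
  · simp [HahnSeries.coeff_single_same]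
  · simp [HahnSeries.coeff_single_of_ne hm]

/-- The coefficientwise derivation kills the series with coefficients in the kernel. -/
theorem coeffDer_coeffMap {R : Type*} [CommRing R] (φ : R →+* L) (δ : Derivation K L L)
    (hφ : ∀ r, δ (φ r) = 0) (g : LaurentSeries R) : coeffDer δ (coeffMap φ g) = 0 := by
  rw [coeffDer_eq_zero_iff]
  intro n
  rw [coeffMap_coeff, hφ]

theorem support_coeffDer_subset (δ : Derivation K L L) (f : LaurentSeries L) :
    (coeffDer δ f).support ⊆ f.support := support_coeffDerFun_subset δ f

/-- The coefficientwise derivation does not lower the `q`-order. -/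
theorem order_le_order_coeffDer (δ : Derivation K L L) {f : LaurentSeries L}
    (h : coeffDer δ f ≠ 0) : f.order ≤ (coeffDer δ f).order := by
  have hf : f ≠ 0 := fun h0 => h (by rw [h0, map_zero])
  have h1 : (coeffDer δ f).order ∈ (coeffDer δ f).support :=
    (HahnSeries.mem_support _ _).mpr (HahnSeries.coeff_order_eq_zero.not.mpr h)
  have h2 : (coeffDer δ f).order ∈ f.support := support_coeffDer_subset δ f h1
  exact HahnSeries.order_le_of_coeff_ne_zero h2

end CoeffDer

section Field

variable {K L : Type*} [CommRing K] [Field L] [Algebra K L]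

theorem coeffDer_C (δ : Derivation K L L) (c : L) :
    coeffDer δ (HahnSeries.C c : LaurentSeries L) = HahnSeries.C (δ c) := by
  rw [HahnSeries.C_apply, HahnSeries.C_apply]
  exact coeffDer_single δ 0 c

theorem coeffDer_algebraMap (δ : Derivation K L L) (c : L) :
    coeffDer δ (algebraMap L (LaurentSeries L) c) = algebraMap L (LaurentSeries L) (δ c) := by
  rw [algebraMap_laurentSeries_eq_single, algebraMap_laurentSeries_eq_single]
  exact coeffDer_single δ 0 c

/-- Quotient rule for inverses. -/
theorem coeffDer_inv (δ : Derivation K L L) (f : LaurentSeries L) :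
    coeffDer δ f⁻¹ = -(f⁻¹ ^ 2 * coeffDer δ f) := by
  rcases eq_or_ne f 0 with rfl | hf
  · simp
  · have h := coeffDer_mul δ f f⁻¹
    rw [mul_inv_cancel₀ hf, coeffDer_one] at h
    have h2 : f * coeffDer δ f⁻¹ = -(f⁻¹ * coeffDer δ f) := by
      rw [eq_neg_iff_add_eq_zero]; exact h.symm
    have h3 : coeffDer δ f⁻¹ = f⁻¹ * (f * coeffDer δ f⁻¹) := by
      rw [← mul_assoc, inv_mul_cancel₀ hf, one_mul]
    rw [h3, h2]
    ring

/-- A derivation of a field of characteristic `0` kills the rational numbers. -/
theorem derivation_algebraMap_rat [Algebra ℚ L] (δ : Derivation K L L) (r : ℚ) :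
    δ (algebraMap ℚ L r) = 0 := by
  have h : algebraMap ℚ L r = (r.num : L) / (r.den : L) := by
    conv_lhs => rw [← Rat.num_div_den r]
    rw [map_div₀, map_intCast, map_natCast]
  rw [h, Derivation.leibniz_div, Derivation.map_intCast, Derivation.map_natCast]
  simp

variable [Algebra ℚ L]

/-- The coefficientwise derivation kills the series with rational coefficients. -/
theorem coeffDer_coeffEmb (δ : Derivation K L L) (x : LaurentSeries ℚ) :
    coeffDer δ (coeffEmb L x) = 0 :=
  coeffDer_coeffMap (algebraMap ℚ L) δ (derivation_algebraMap_rat δ) x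

/-- The coefficientwise derivation preserves the base change `L · F₀` of a field of Laurent
series with rational coefficients. -/
theorem coeffDer_mem_laurentBaseChange (δ : Derivation K L L)
    (F₀ : IntermediateField ℚ (LaurentSeries ℚ)) {x : LaurentSeries L}
    (hx : x ∈ laurentBaseChange L F₀) : coeffDer δ x ∈ laurentBaseChange L F₀ := by
  induction hx using IntermediateField.adjoin_induction with
  | mem y hy =>
    obtain ⟨z, -, rfl⟩ := hy
    rw [coeffDer_coeffEmb]
    exact zero_mem _
  | algebraMap c =>
    rw [coeffDer_algebraMap]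
    exact IntermediateField.algebraMap_mem _ _
  | add y z hy hz ihy ihz =>
    rw [map_add]
    exact add_mem ihy ihz
  | inv y hy ih =>
    rw [coeffDer_inv]
    exact neg_mem (mul_mem (pow_mem (inv_mem hy) 2) ih)
  | mul y z hy hz ihy ihz =>
    rw [coeffDer_mul]
    exact add_mem (mul_mem hy ihz) (mul_mem hz ihy)

end Field

end Fermat.Agent.S17.H800
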