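/-
S17 row, piece G-DIV / DER-1, abstract local core (helper800).

`D` a derivation (additive + Leibniz) of a field `F`, `v` a place of `F/L`, `R ⊆ O_v` a `D`-stable
subring with `Frac R = F`, `u ∈ R` with `ord_v u > 0` such that every element of `R` of positive
order is `u · a / b` with `a, b ∈ R`, `ord_v b = 0`.  Then

* `ord_v u = 1` (so `O_v` is the localisation of `R` at `m_v ∩ R`), and
* for every `f ≠ 0`:  `D f / f - ord_v f · (D u / u) ∈ O_v`.

Consequences (`ord_le_ord_der`, `ord_sub_one_le_ord_der`): if `D u = 0` then `ord_v (D f) ≥ ord_v f`;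
if `D u ∈ O_v` then `ord_v (D f) ≥ ord_v f - 1`, and `D f ∈ O_v` when `ord_v f = 0`.
Proof sketch and use for RIG/DOM: `origin/helper800:coord/S17-DER-helper800.md`.

The two instances (all hypotheses are elementary properties of the base change `F = L · F1`):

* `GenericSetup v D F1 x` (place of GENERIC type: `ord_v = 0` on `F1ˣ`, `D F1 = 0`, `D L ⊆ L`,
  `F1` algebraic over `K1(x)`, `F = Frac (L · F1)`):
  `GenericSetup.ord_sub_one_le_ord_der`, `GenericSetup.der_mem_of_ord_eq_zero`,
  `GenericSetup.exists_ord_sub_eq_one` (a generic place is unramified over `x`);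
* `ConstSetup v D A1 t` (CONSTANT place: `A1` = image of the valuation ring downstairs, `t` a
  uniformiser downstairs, `A1 = L-constants + t · A1`): `ConstSetup.ord_le_ord_der`.
-/
import Fermat.Agent.Lib.RR.Ord

set_option autoImplicit false
set_option linter.unusedSectionVars false
set_option linter.style.haveILetI false

noncomputable section

open AlgebraicCurve Fermat.Agent.Lib.RR Polynomial

namespace Fermat.Agent.S17.H800

/-- An additive self-map of a commutative ring satisfying the Leibniz rule. -/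
structure IsDer {F : Type*} [CommRing F] (D : F →+ F) : Prop where
  leibniz : ∀ f g : F, D (f * g) = f * D g + g * D f

namespace IsDer

variable {F : Type*} [Field F] {D : F →+ F} (hD : IsDer D)

include hD

theorem map_one : D 1 = 0 := by
  have h := hD.leibniz 1 1
  rw [mul_one, one_mul] at h
  have h2 : D 1 + D 1 = D 1 + 0 := by rw [add_zero]; exact h.symm
  exact add_left_cancel h2

/-- Logarithmic derivative of a product. -/
theorem ld_mul {f g : F} (hf : f ≠ 0) (hg : g ≠ 0) :
    D (f * g) / (f * g) = D f / f + D g / g := by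
  rw [hD.leibniz]
  field_simp
  ring

theorem ld_inv {f : F} (hf : f ≠ 0) : D f⁻¹ / f⁻¹ = -(D f / f) := by
  have h := hD.ld_mul hf (inv_ne_zero hf)
  rw [mul_inv_cancel₀ hf, hD.map_one, zero_div] at h
  rw [eq_neg_iff_add_eq_zero, add_comm]
  exact h.symm

theorem ld_div {f g : F} (hf : f ≠ 0) (hg : g ≠ 0) :
    D (f / g) / (f / g) = D f / f - D g / g := by
  have h : f / g = f * g⁻¹ := div_eq_mul_inv f g
  rw [h, hD.ld_mul hf (inv_ne_zero hg), hD.ld_inv hg, sub_eq_add_neg]

theorem ld_pow {f : F} (hf : f ≠ 0) (n : ℕ) : D (f ^ n) / f ^ n = n * (D f / f) := by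
  induction n with
  | zero => simp [hD.map_one]
  | succ n ih =>
    rw [pow_succ, hD.ld_mul (pow_ne_zero n hf) hf, ih]
    push_cast
    ring

end IsDer

section Local

variable {L F : Type*} [Field L] [Field F] [Algebra L F]

/-- The hypotheses of the abstract local statement. -/
structure DerLocalData (v : Place L F) (D : F →+ F) (R : Subring F) (u : F) : Prop where
  isDer : IsDer D
  le_val : ∀ g ∈ R, g ∈ v.toValuationSubring
  stable : ∀ g ∈ R, D g ∈ R
  frac : ∀ f : F, ∃ g ∈ R, ∃ h ∈ R, h ≠ 0 ∧ f * h = g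
  u_mem : u ∈ R
  u_pos : 0 < v.ord u
  gen : ∀ g ∈ R, 0 < v.ord g → ∃ a ∈ R, ∃ b ∈ R, b ≠ 0 ∧ v.ord b = 0 ∧ g * b = u * a

namespace DerLocalData

variable {v : Place L F} {D : F →+ F} {R : Subring F} {u : F} (H : DerLocalData v D R u)

include H

theorem u_ne_zero : u ≠ 0 := ne_zero_of_ord_ne_zero v H.u_pos.ne'

theorem ord_nonneg {g : F} (hg : g ∈ R) : 0 ≤ v.ord g := ord_nonneg_of_mem v (H.le_val g hg)

/-- Logarithmic derivatives of units of `R` are integral. -/
theorem ld_mem_of_ord_eq_zero {p : F} (hp : p ∈ R) (_hp0 : p ≠ 0) (hord : v.ord p = 0) :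
    D p / p ∈ v.toValuationSubring := by
  rw [div_eq_mul_inv]
  refine mul_mem (H.le_val _ (H.stable p hp)) (mem_of_ord_nonneg v ?_)
  rw [v.ord_inv, hord]
  simp

/-- Factorisation in `R`: `g · b = u ^ k · a` with `a, b` units at `v`. -/
theorem exists_factor (n : ℕ) : ∀ g ∈ R, g ≠ 0 → v.ord g ≤ n →
    ∃ k : ℕ, ∃ a ∈ R, ∃ b ∈ R, a ≠ 0 ∧ b ≠ 0 ∧ v.ord a = 0 ∧ v.ord b = 0 ∧ g * b = u ^ k * a := by
  induction n with
  | zero =>
    intro g hg hg0 hle
    have h0 : v.ord g = 0 := le_antisymm (by simpa using hle) (H.ord_nonneg hg)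
    exact ⟨0, g, hg, 1, R.one_mem, hg0, one_ne_zero, h0, v.ord_one, by simp⟩
  | succ n ih =>
    intro g hg hg0 hle
    rcases (H.ord_nonneg hg).eq_or_lt with h0 | hpos
    · exact ⟨0, g, hg, 1, R.one_mem, hg0, one_ne_zero, h0.symm, v.ord_one, by simp⟩
    · obtain ⟨a, ha, b, hb, hb0, hbord, hab⟩ := H.gen g hg hpos
      have ha0 : a ≠ 0 := by
        rintro rfl
        rw [mul_zero] at hab
        exact (mul_ne_zero hg0 hb0) hab
      have hu0 := H.u_ne_zero
      have h1 : v.ord g = v.ord u + v.ord a := by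
        have := congrArg v.ord hab
        rw [v.ord_mul hg0 hb0, v.ord_mul hu0 ha0, hbord, add_zero] at this
        exact this
      have h2 : v.ord a ≤ n := by
        have := H.u_pos
        push_cast at hle
        omega
      obtain ⟨k, a', ha', b', hb', ha'0, hb'0, ha'ord, hb'ord, hfac⟩ := ih a ha ha0 h2
      refine ⟨k + 1, a', ha', b * b', R.mul_mem hb hb', ha'0, mul_ne_zero hb0 hb'0, ha'ord, ?_, ?_⟩
      · rw [v.ord_mul hb0 hb'0, hbord, hb'ord, add_zero]
      · calc g * (b * b') = (g * b) * b' := by ring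
          _ = u * (a * b') := by rw [hab]; ring
          _ = u ^ (k + 1) * a' := by rw [hfac]; ring

/-- Elements of `R`: order and logarithmic derivative. -/
theorem exists_ord_ld {g : F} (hg : g ∈ R) (hg0 : g ≠ 0) :
    ∃ k : ℕ, v.ord g = k * v.ord u ∧ D g / g - k * (D u / u) ∈ v.toValuationSubring := by
  obtain ⟨k, a, ha, b, hb, ha0, hb0, haord, hbord, hfac⟩ :=
    H.exists_factor (v.ord g).toNat g hg hg0 (by
      rw [Int.toNat_of_nonneg (H.ord_nonneg hg)])
  have hu0 := H.u_ne_zero
  refine ⟨k, ?_, ?_⟩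
  · have := congrArg v.ord hfac
    rw [v.ord_mul hg0 hb0, v.ord_mul (pow_ne_zero k hu0) ha0, hbord, haord, add_zero, add_zero,
      ord_pow] at this
    exact this
  · have h1 : D (g * b) / (g * b) = D (u ^ k * a) / (u ^ k * a) := by rw [hfac]
    rw [H.isDer.ld_mul hg0 hb0, H.isDer.ld_mul (pow_ne_zero k hu0) ha0,
      H.isDer.ld_pow hu0] at h1
    have h2 : D g / g - k * (D u / u) = D a / a - D b / b := by
      rw [sub_eq_sub_iff_add_eq_add, h1]
      ring
    rw [h2]
    exact sub_mem (H.ld_mem_of_ord_eq_zero ha ha0 haord) (H.ld_mem_of_ord_eq_zero hb hb0 hbord)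

/-- All elements of `F`: order and logarithmic derivative. -/
theorem exists_ord_ld' {f : F} (hf : f ≠ 0) :
    ∃ m : ℤ, v.ord f = m * v.ord u ∧ D f / f - m * (D u / u) ∈ v.toValuationSubring := by
  obtain ⟨g, hg, h, hh, hh0, hfh⟩ := H.frac f
  have hg0 : g ≠ 0 := by
    rw [← hfh]
    exact mul_ne_zero hf hh0
  obtain ⟨k, hk, hkld⟩ := H.exists_ord_ld hg hg0
  obtain ⟨l, hl, hlld⟩ := H.exists_ord_ld hh hh0
  have hfdiv : f = g / h := by
    rw [← hfh, mul_div_cancel_right₀ _ hh0]
  refine ⟨(k : ℤ) - l, ?_, ?_⟩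
  · rw [hfdiv, div_eq_mul_inv, v.ord_mul hg0 (inv_ne_zero hh0), v.ord_inv, hk, hl]
    ring
  · rw [hfdiv, H.isDer.ld_div hg0 hh0]
    have : D g / g - D h / h - ((k : ℤ) - (l : ℤ) : ℤ) * (D u / u)
        = (D g / g - k * (D u / u)) - (D h / h - l * (D u / u)) := by
      push_cast
      ring
    rw [this]
    exact sub_mem hkld hlld

/-- `u` is a uniformiser at `v`. -/
theorem ord_u : v.ord u = 1 := by
  obtain ⟨π, hπ⟩ := IsDiscreteValuationRing.exists_irreducible v.toValuationSubring
  have hπ1 : v.ord (π : F) = 1 := v.ord_coe_irreducible hπ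
  have hπ0 : (π : F) ≠ 0 := ne_zero_of_ord_ne_zero v (by rw [hπ1]; exact one_ne_zero)
  obtain ⟨m, hm, -⟩ := H.exists_ord_ld' hπ0
  rw [hπ1] at hm
  have hpos := H.u_pos
  have h1 : v.ord u ∣ 1 := ⟨m, by rw [mul_comm]; exact hm⟩
  exact Int.eq_one_of_dvd_one hpos.le h1

/-- **Abstract DER-1.**  `D f / f - ord_v f · (D u / u) ∈ O_v`. -/
theorem ld_sub_mem {f : F} (hf : f ≠ 0) :
    D f / f - (v.ord f : ℤ) * (D u / u) ∈ v.toValuationSubring := by
  obtain ⟨m, hm, hmld⟩ := H.exists_ord_ld' hf
  rw [H.ord_u, mul_one] at hm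
  rw [hm]
  exact hmld

/-- If `D u = 0` (constant place): `D` does not lower the order. -/
theorem ord_le_ord_der (hDu : D u = 0) {f : F} (hf : f ≠ 0) (hDf : D f ≠ 0) :
    v.ord f ≤ v.ord (D f) := by
  have h := H.ld_sub_mem hf
  rw [hDu, zero_div, mul_zero, sub_zero] at h
  have h1 := ord_nonneg_of_mem v h
  rw [div_eq_mul_inv, v.ord_mul hDf (inv_ne_zero hf), v.ord_inv] at h1
  omega

/-- If `D u ∈ O_v`: `D` lowers the order by at most one. -/
theorem ord_sub_one_le_ord_der (hDu : D u ∈ v.toValuationSubring) {f : F} (hf : f ≠ 0)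
    (hDf : D f ≠ 0) : v.ord f - 1 ≤ v.ord (D f) := by
  have h := H.ld_sub_mem hf
  have hu0 := H.u_ne_zero
  have h2 : (v.ord f : ℤ) * (D u / u) * u ∈ v.toValuationSubring := by
    have : ((v.ord f : ℤ) : F) * (D u / u) * u = ((v.ord f : ℤ) : F) * D u := by
      field_simp
    rw [this]
    exact mul_mem (intCast_mem _ _) hDu
  have h3 : D f / f * u ∈ v.toValuationSubring := by
    have : D f / f * u = (D f / f - (v.ord f : ℤ) * (D u / u)) * u
        + (v.ord f : ℤ) * (D u / u) * u := by ring
    rw [this]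
    exact add_mem (mul_mem h (H.le_val u H.u_mem)) h2
  have h4 := ord_nonneg_of_mem v h3
  rw [v.ord_mul (div_ne_zero hDf hf) hu0, div_eq_mul_inv, v.ord_mul hDf (inv_ne_zero hf),
    v.ord_inv, H.ord_u] at h4
  omega

/-- If `f` is a unit at `v`, then `D f ∈ O_v`. -/
theorem der_mem_of_ord_eq_zero {f : F} (hf : f ≠ 0)
    (hord : v.ord f = 0) : D f ∈ v.toValuationSubring := by
  have h := H.ld_sub_mem hf
  rw [hord] at h
  simp only [Int.cast_zero, zero_mul, sub_zero] at h
  have hfm : f ∈ v.toValuationSubring := mem_of_ord_nonneg v (by rw [hord])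
  have : D f = D f / f * f := by field_simp
  rw [this]
  exact mul_mem h hfm

end DerLocalData

end Local

/-! ### The value map at a place of degree one -/

section Value

variable {L F : Type*} [Field L] [Field F] [Algebra L F]

theorem bijective_algebraMap_residue (v : Place L F) (hv : v.deg = 1) :
    Function.Bijective (algebraMap L v.ResidueField) := by
  refine ⟨(algebraMap L v.ResidueField).injective, fun y => ?_⟩
  have h1 : (1 : v.ResidueField) ≠ 0 := one_ne_zero
  have hspan := (finrank_eq_one_iff_of_nonzero' (1 : v.ResidueField) h1).mp hv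
  obtain ⟨c, hc⟩ := hspan y
  exact ⟨c, by rw [← hc, Algebra.smul_def, mul_one]⟩

/-- The value of a regular function at a place of degree one. -/
def evO (v : Place L F) (hv : v.deg = 1) : v.toValuationSubring →+* L :=
  ((RingEquiv.ofBijective (algebraMap L v.ResidueField)
    (bijective_algebraMap_residue v hv)).symm : v.ResidueField →+* L).comp
      (IsLocalRing.residue v.toValuationSubring)

theorem evO_algebraMap (v : Place L F) (hv : v.deg = 1) (c : L) :
    evO v hv (algebraMap L v.toValuationSubring c) = c := by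
  show (RingEquiv.ofBijective (algebraMap L v.ResidueField)
    (bijective_algebraMap_residue v hv)).symm
      (IsLocalRing.residue v.toValuationSubring (algebraMap L v.toValuationSubring c)) = c
  rw [RingEquiv.symm_apply_eq]
  rfl

theorem evO_eq_zero_iff (v : Place L F) (hv : v.deg = 1) (a : v.toValuationSubring) :
    evO v hv a = 0 ↔ (a : F) = 0 ∨ 0 < v.ord (a : F) := by
  rw [← mem_maximalIdeal_iff, ← IsLocalRing.residue_eq_zero_iff]
  show (RingEquiv.ofBijective (algebraMap L v.ResidueField)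
    (bijective_algebraMap_residue v hv)).symm
      (IsLocalRing.residue v.toValuationSubring a) = 0 ↔ _
  rw [RingEquiv.symm_apply_eq, map_zero]

end Value

/-! ### Elements of positive order, the localisation of a subring at a place -/

section Loc

variable {L F : Type*} [Field L] [Field F] [Algebra L F]
variable (v : Place L F)

/-- `f` lies in the maximal ideal of `v`. -/
def Pos (f : F) : Prop := f = 0 ∨ 0 < v.ord f

variable {v}

theorem Pos.zero : Pos v (0 : F) := Or.inl rfl

theorem Pos.mem {f : F} (h : Pos v f) : f ∈ v.toValuationSubring := by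
  rcases h with rfl | h
  · exact zero_mem _
  · exact mem_of_ord_nonneg v h.le

theorem Pos.add {f g : F} (hf : Pos v f) (hg : Pos v g) : Pos v (f + g) :=
  ord_add_of_le v (n := 1) hf hg

theorem Pos.neg {f : F} (hf : Pos v f) : Pos v (-f) := by
  rcases hf with rfl | h
  · left; simp
  · right; rwa [ord_neg]

theorem Pos.mul {f g : F} (hf : Pos v f) (hg : g ∈ v.toValuationSubring) : Pos v (f * g) := by
  rcases hf with rfl | h
  · left; simp
  rcases eq_or_ne g 0 with rfl | hg0
  · left; simp
  right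
  have hf0 : f ≠ 0 := ne_zero_of_ord_ne_zero v h.ne'
  rw [v.ord_mul hf0 hg0]
  have := ord_nonneg_of_mem v hg
  omega

theorem Pos.sub {f g : F} (hf : Pos v f) (hg : Pos v g) : Pos v (f - g) := by
  rw [sub_eq_add_neg]
  exact hf.add hg.neg

theorem Pos.eq_zero_of_algebraMap {c : L} (h : Pos v (algebraMap L F c)) : c = 0 := by
  rcases h with h | h
  · exact (_root_.map_eq_zero _).mp h
  · rw [ord_algebraMap] at h
    exact absurd h (lt_irrefl 0)

/-- a nonzero constant plus an element of positive order is a unit at `v` -/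
theorem ord_const_add {c : L} (hc : c ≠ 0) {f : F} (hf : Pos v f) :
    algebraMap L F c + f ≠ 0 ∧ v.ord (algebraMap L F c + f) = 0 := by
  have hc' : algebraMap L F c ≠ 0 := (_root_.map_ne_zero _).mpr hc
  rcases hf with rfl | h
  · rw [add_zero]
    exact ⟨hc', ord_algebraMap v c⟩
  · have hf0 : f ≠ 0 := ne_zero_of_ord_ne_zero v h.ne'
    have h1 : v.ord (algebraMap L F c) < v.ord f := by rw [ord_algebraMap]; exact h
    have h2 := ord_add_eq_of_lt v hc' hf0 h1
    rw [ord_algebraMap] at h2
    refine ⟨fun h0 => ?_, h2⟩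
    have : f = -(algebraMap L F c) := by
      rw [eq_neg_iff_add_eq_zero, add_comm]; exact h0
    rw [this, ord_neg, ord_algebraMap] at h
    exact lt_irrefl 0 h

variable (v) (R0 : Subalgebra L F)

/-- `f` lies in the localisation of `R0` at the elements which are units at `v`. -/
def Loc (f : F) : Prop := ∃ a ∈ R0, ∃ b ∈ R0, b ≠ 0 ∧ v.ord b = 0 ∧ f * b = a

variable {v R0}

theorem Loc.of_mem {f : F} (hf : f ∈ R0) : Loc v R0 f :=
  ⟨f, hf, 1, R0.one_mem, one_ne_zero, v.ord_one, mul_one f⟩

theorem Loc.add {f g : F} (hf : Loc v R0 f) (hg : Loc v R0 g) : Loc v R0 (f + g) := by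
  obtain ⟨a, ha, b, hb, hb0, hbo, hab⟩ := hf
  obtain ⟨a', ha', b', hb', hb0', hbo', hab'⟩ := hg
  refine ⟨a * b' + a' * b, R0.add_mem (R0.mul_mem ha hb') (R0.mul_mem ha' hb), b * b',
    R0.mul_mem hb hb', mul_ne_zero hb0 hb0', ?_, ?_⟩
  · rw [v.ord_mul hb0 hb0', hbo, hbo', add_zero]
  · rw [← hab, ← hab']; ring

theorem Loc.mul {f g : F} (hf : Loc v R0 f) (hg : Loc v R0 g) : Loc v R0 (f * g) := by
  obtain ⟨a, ha, b, hb, hb0, hbo, hab⟩ := hf
  obtain ⟨a', ha', b', hb', hb0', hbo', hab'⟩ := hg
  refine ⟨a * a', R0.mul_mem ha ha', b * b', R0.mul_mem hb hb', mul_ne_zero hb0 hb0', ?_, ?_⟩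
  · rw [v.ord_mul hb0 hb0', hbo, hbo', add_zero]
  · rw [← hab, ← hab']; ring

theorem Loc.neg {f : F} (hf : Loc v R0 f) : Loc v R0 (-f) := by
  obtain ⟨a, ha, b, hb, hb0, hbo, hab⟩ := hf
  exact ⟨-a, R0.neg_mem ha, b, hb, hb0, hbo, by rw [← hab]; ring⟩

theorem Loc.div {f b : F} (hf : Loc v R0 f) (hb : b ∈ R0) (hb0 : b ≠ 0) (hbo : v.ord b = 0) :
    Loc v R0 (f / b) := by
  obtain ⟨a, ha, b', hb', hb0', hbo', hab⟩ := hf
  refine ⟨a, ha, b' * b, R0.mul_mem hb' hb, mul_ne_zero hb0' hb0, ?_, ?_⟩
  · rw [v.ord_mul hb0' hb0, hbo, hbo', add_zero]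
  · rw [← hab]; field_simp

theorem Loc.sum {ι : Type*} (s : Finset ι) {f : ι → F} (hf : ∀ i ∈ s, Loc v R0 (f i)) :
    Loc v R0 (∑ i ∈ s, f i) := by
  classical
  induction s using Finset.induction_on with
  | empty => simpa using Loc.of_mem (v := v) R0.zero_mem
  | insert a s ha ih =>
    rw [Finset.sum_insert ha]
    exact (hf a (Finset.mem_insert_self a s)).add
      (ih fun i hi => hf i (Finset.mem_insert_of_mem hi))

theorem Loc.mem_val (hR0 : ∀ g ∈ R0, g ∈ v.toValuationSubring) {f : F} (hf : Loc v R0 f) :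
    f ∈ v.toValuationSubring := by
  obtain ⟨a, ha, b, hb, hb0, hbo, hab⟩ := hf
  have h1 : f = a * b⁻¹ := by rw [← hab]; field_simp
  rw [h1]
  exact mul_mem (hR0 a ha) (mem_of_ord_nonneg v (by rw [v.ord_inv, hbo]; simp))

theorem ord_unit_add {f g : F} (hf0 : f ≠ 0) (hf : v.ord f = 0) (hg : Pos v g) :
    f + g ≠ 0 ∧ v.ord (f + g) = 0 := by
  rcases hg with rfl | h
  · rw [add_zero]; exact ⟨hf0, hf⟩
  · have hg0 : g ≠ 0 := ne_zero_of_ord_ne_zero v h.ne'
    have h1 : v.ord f < v.ord g := by rw [hf]; exact h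
    have h2 := ord_add_eq_of_lt v hf0 hg0 h1
    rw [hf] at h2
    refine ⟨fun h0 => ?_, h2⟩
    have : g = -f := by rw [eq_neg_iff_add_eq_zero, add_comm]; exact h0
    rw [this, ord_neg, hf] at h
    exact lt_irrefl 0 h

end Loc

/-! ### Congruence to constants modulo `u` -/

section InS

variable {L F : Type*} [Field L] [Field F] [Algebra L F]
variable (v : Place L F) (R0 : Subalgebra L F) (u : F)

/-- `f ≡ c` modulo `u · Loc` for some constant `c ∈ L`. -/
def InS (f : F) : Prop := ∃ c : L, ∃ r, Loc v R0 r ∧ f - algebraMap L F c = u * r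

variable {v R0 u}

theorem InS.const (c : L) : InS v R0 u (algebraMap L F c) :=
  ⟨c, 0, Loc.of_mem R0.zero_mem, by simp⟩

theorem InS.zero : InS v R0 u (0 : F) := by
  simpa using InS.const (v := v) (R0 := R0) (u := u) 0

theorem InS.one : InS v R0 u (1 : F) := by
  simpa using InS.const (v := v) (R0 := R0) (u := u) 1

theorem InS.add {f g : F} (hf : InS v R0 u f) (hg : InS v R0 u g) : InS v R0 u (f + g) := by
  obtain ⟨c, r, hr, h⟩ := hf
  obtain ⟨c', r', hr', h'⟩ := hg
  refine ⟨c + c', r + r', hr.add hr', ?_⟩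
  rw [map_add, mul_add, ← h, ← h']
  ring

theorem InS.neg {f : F} (hf : InS v R0 u f) : InS v R0 u (-f) := by
  obtain ⟨c, r, hr, h⟩ := hf
  refine ⟨-c, -r, hr.neg, ?_⟩
  rw [map_neg, mul_neg, ← h]
  ring

theorem InS.mul (hu : u ∈ R0) {f g : F} (hf : InS v R0 u f) (hg : InS v R0 u g) :
    InS v R0 u (f * g) := by
  obtain ⟨c, r, hr, h⟩ := hf
  obtain ⟨c', r', hr', h'⟩ := hg
  have hc : Loc v R0 (algebraMap L F c) := Loc.of_mem (R0.algebraMap_mem c)
  have hc' : Loc v R0 (algebraMap L F c') := Loc.of_mem (R0.algebraMap_mem c')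
  refine ⟨c * c', algebraMap L F c * r' + algebraMap L F c' * r + u * (r * r'),
    ((hc.mul hr').add (hc'.mul hr)).add ((Loc.of_mem hu).mul (hr.mul hr')), ?_⟩
  have e1 : f = algebraMap L F c + u * r := by rw [← h]; ring
  have e2 : g = algebraMap L F c' + u * r' := by rw [← h']; ring
  rw [e1, e2, map_mul]
  ring

theorem InS.pow (hu : u ∈ R0) {f : F} (hf : InS v R0 u f) (n : ℕ) : InS v R0 u (f ^ n) := by
  induction n with
  | zero => simpa using InS.one (v := v) (R0 := R0) (u := u)
  | succ n ih => rw [pow_succ]; exact ih.mul hu hf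

theorem InS.sum {ι : Type*} (s : Finset ι) {f : ι → F} (hf : ∀ i ∈ s, InS v R0 u (f i)) :
    InS v R0 u (∑ i ∈ s, f i) := by
  classical
  induction s using Finset.induction_on with
  | empty => simpa using InS.zero (v := v) (R0 := R0) (u := u)
  | insert a s ha ih =>
    rw [Finset.sum_insert ha]
    exact (hf a (Finset.mem_insert_self a s)).add
      (ih fun i hi => hf i (Finset.mem_insert_of_mem hi))

theorem InS.loc (hu : u ∈ R0) {f : F} (hf : InS v R0 u f) : Loc v R0 f := by
  obtain ⟨c, r, hr, h⟩ := hf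
  have e1 : f = algebraMap L F c + u * r := by rw [← h]; ring
  rw [e1]
  exact (Loc.of_mem (R0.algebraMap_mem c)).add ((Loc.of_mem hu).mul hr)

/-- The constant of an element of positive order is `0`. -/
theorem InS.exists_mul_of_pos (hR0 : ∀ g ∈ R0, g ∈ v.toValuationSubring) (hupos : Pos v u)
    {f : F} (hf : InS v R0 u f) (hpos : Pos v f) : ∃ r, Loc v R0 r ∧ f = u * r := by
  obtain ⟨c, r, hr, h⟩ := hf
  have h1 : Pos v (algebraMap L F c) := by
    have e : algebraMap L F c = f - u * r := by rw [← h]; ring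
    rw [e]
    exact hpos.sub (hupos.mul (hr.mem_val hR0))
  have hc : c = 0 := h1.eq_zero_of_algebraMap
  refine ⟨r, hr, ?_⟩
  rw [← h, hc, map_zero, sub_zero]

/-- Inverses of units. -/
theorem InS.inv (hR0 : ∀ g ∈ R0, g ∈ v.toValuationSubring) (hupos : Pos v u)
    {f : F} (hf : InS v R0 u f) (hfR : f ∈ R0) (hf0 : f ≠ 0) (hfo : v.ord f = 0) :
    InS v R0 u f⁻¹ := by
  obtain ⟨c, r, hr, h⟩ := hf
  have hc : c ≠ 0 := by
    rintro rfl
    rw [map_zero, sub_zero] at h
    have hp : Pos v f := by rw [h]; exact hupos.mul (hr.mem_val hR0)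
    rcases hp with h0 | h0
    · exact hf0 h0
    · omega
  have hc' : algebraMap L F c ≠ 0 := (_root_.map_ne_zero _).mpr hc
  refine ⟨c⁻¹, -(algebraMap L F c⁻¹ * r) / f,
    (Loc.div ((Loc.of_mem (R0.algebraMap_mem c⁻¹)).mul hr).neg hfR hf0 hfo), ?_⟩
  have e1 : f = algebraMap L F c + u * r := by rw [← h]; ring
  have e2 : u * r = f - algebraMap L F c := h.symm
  rw [map_inv₀]
  field_simp
  rw [e2]
  ring

/-- **Lifting along separable roots.**  If the coefficients of `q` are congruent to constants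
modulo `u`, `q h = 0` and `q' h` is a unit at `v`, then `h` is congruent to a constant. -/
theorem InS.of_root (hR0 : ∀ g ∈ R0, g ∈ v.toValuationSubring) (hv : v.deg = 1)
    (huR : u ∈ R0) (hupos : Pos v u)
    (q : Polynomial R0) (hq : ∀ i, InS v R0 u ((q.coeff i : R0) : F))
    (h : R0) (hroot : q.eval h = 0)
    (hsep0 : ((q.derivative.eval h : R0) : F) ≠ 0)
    (hsep : v.ord ((q.derivative.eval h : R0) : F) = 0) :
    InS v R0 u (h : F) := by
  obtain ⟨c, hc⟩ := exists_const_sub v hv (ord_nonneg_of_mem v (hR0 h h.2))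
  have hpos : Pos v ((h : F) - algebraMap L F c) := hc
  set c₀ : R0 := algebraMap L R0 c with hc₀
  have hc₀F : ((c₀ : R0) : F) = algebraMap L F c := rfl
  set G := q /ₘ (X - C h) with hG
  have hqG : (X - C h) * G = q := by
    have := Polynomial.modByMonic_add_div q (X - C h)
    rwa [Polynomial.modByMonic_X_sub_C_eq_C_eval, hroot, C_0, zero_add] at this
  have hGh : G.eval h = q.derivative.eval h := by
    rw [← hqG, derivative_mul]
    simp
  have e1 : q.eval c₀ = (c₀ - h) * G.eval c₀ := by
    rw [← hqG]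
    simp
  obtain ⟨w, hw⟩ : (c₀ - h) ∣ G.eval c₀ - G.eval h := Polynomial.sub_dvd_eval_sub c₀ h G
  have hposneg : Pos v (((c₀ - h : R0) : R0) : F) := by
    have : (((c₀ - h : R0) : R0) : F) = -((h : F) - algebraMap L F c) := by
      push_cast
      rw [hc₀F]
      ring
    rw [this]
    exact hpos.neg
  have hGc : ((G.eval c₀ : R0) : F) ≠ 0 ∧ v.ord ((G.eval c₀ : R0) : F) = 0 := by
    have e2 : ((G.eval c₀ : R0) : F)
        = ((q.derivative.eval h : R0) : F) + (((c₀ - h : R0) : R0) : F) * (w : F) := by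
      rw [← hGh]
      have := congrArg (fun z : R0 => (z : F)) hw
      push_cast at this ⊢
      rw [← this]
      ring
    rw [e2]
    exact ord_unit_add hsep0 hsep (hposneg.mul (hR0 w w.2))
  have hqc : InS v R0 u ((q.eval c₀ : R0) : F) := by
    rw [Polynomial.eval_eq_sum_range]
    push_cast
    refine InS.sum _ fun i _ => ?_
    exact (hq i).mul huR ((InS.const c).pow huR i)
  have hqcpos : Pos v ((q.eval c₀ : R0) : F) := by
    rw [e1]
    push_cast
    have := hposneg.mul (hR0 _ (G.eval c₀).2)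
    push_cast at this
    exact this
  obtain ⟨r, hr, hqr⟩ := hqc.exists_mul_of_pos hR0 hupos hqcpos
  refine ⟨c, -r / ((G.eval c₀ : R0) : F),
    Loc.div hr.neg (G.eval c₀).2 hGc.1 hGc.2, ?_⟩
  have e3 : ((q.eval c₀ : R0) : F) = (algebraMap L F c - (h : F)) * ((G.eval c₀ : R0) : F) := by
    rw [e1]
    push_cast
    rw [hc₀F]
  rw [e3] at hqr
  have hne := hGc.1
  field_simp
  linear_combination -hqr

end InS

/-! ### The generic case -/

section GenericCase

variable {K1 L F : Type*} [Field K1] [Field L] [Field F] [Algebra K1 L] [Algebra L F]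
  [Algebra K1 F] [IsScalarTower K1 L F] [CharZero K1]

/-- The situation at a place of generic type: `F1 ⊆ F` is the (image of the) function field over
the small constant field `K1 ⊆ L`, the derivation `D` kills `F1` and preserves `L`, the place `v`
of `F / L` is trivial on `F1`, and `F = Frac (L · F1)`. -/
structure GenericSetup (v : Place L F) (D : F →+ F) (F1 : IntermediateField K1 F) (x : F) :
    Prop where
  deg_one : v.deg = 1
  isDer : IsDer D
  der_F1 : ∀ h ∈ F1, D h = 0
  der_const : ∀ c : L, ∃ c' : L, D (algebraMap L F c) = algebraMap L F c'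
  generic : ∀ h ∈ F1, h ≠ 0 → v.ord h = 0
  x_mem : x ∈ F1
  x_nonconst : x ∉ Set.range (algebraMap L F)
  algebraic : ∀ h ∈ F1, IsAlgebraic (IntermediateField.adjoin K1 {x}) h
  frac : ∀ f : F, ∃ g ∈ Algebra.adjoin L (F1 : Set F), ∃ h ∈ Algebra.adjoin L (F1 : Set F),
    h ≠ 0 ∧ f * h = g

namespace GenericSetup

variable {v : Place L F} {D : F →+ F} {F1 : IntermediateField K1 F} {x : F}
  (H : GenericSetup v D F1 x)

include H

theorem F1_mem_val {h : F} (hh : h ∈ F1) : h ∈ v.toValuationSubring := by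
  rcases eq_or_ne h 0 with rfl | h0
  · exact zero_mem _
  · exact mem_of_ord_nonneg v (by rw [H.generic h hh h0])

theorem adjoin_le_val : ∀ g ∈ Algebra.adjoin L (F1 : Set F), g ∈ v.toValuationSubring := by
  intro g hg
  induction hg using Algebra.adjoin_induction with
  | mem h hh => exact H.F1_mem_val hh
  | algebraMap c => exact v.algebraMap_mem' c
  | add f g _ _ hf hg => exact add_mem hf hg
  | mul f g _ _ hf hg => exact mul_mem hf hg

theorem adjoin_stable : ∀ g ∈ Algebra.adjoin L (F1 : Set F),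
    D g ∈ Algebra.adjoin L (F1 : Set F) := by
  intro g hg
  induction hg using Algebra.adjoin_induction with
  | mem h hh =>
    rw [H.der_F1 h hh]
    exact zero_mem _
  | algebraMap c =>
    obtain ⟨c', hc'⟩ := H.der_const c
    rw [hc']
    exact Subalgebra.algebraMap_mem _ c'
  | add f g _ _ hf hg =>
    rw [map_add]
    exact add_mem hf hg
  | mul f g hf' hg' hf hg =>
    rw [H.isDer.leibniz]
    exact add_mem (mul_mem hf' hg) (mul_mem hg' hf)

theorem F1_le_adjoin {h : F} (hh : h ∈ F1) : h ∈ Algebra.adjoin L (F1 : Set F) :=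
  Algebra.subset_adjoin hh

theorem adjoin_simple_le : IntermediateField.adjoin K1 {x} ≤ F1 := by
  rw [IntermediateField.adjoin_le_iff]
  rintro _ rfl
  exact H.x_mem

/-- The value `a = x(P)` and the local parameter `u = x - a`. -/
theorem exists_value : ∃ a : L, Pos v (x - algebraMap L F a) ∧ x - algebraMap L F a ≠ 0 := by
  obtain ⟨a, ha⟩ := exists_const_sub v H.deg_one (ord_nonneg_of_mem v (H.F1_mem_val H.x_mem))
  refine ⟨a, ha, fun h0 => H.x_nonconst ⟨a, ?_⟩⟩
  rw [sub_eq_zero] at h0
  exact h0.symm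

section WithValue

variable {a : L} (ha : Pos v (x - algebraMap L F a))

include ha

theorem u_mem : x - algebraMap L F a ∈ Algebra.adjoin L (F1 : Set F) :=
  sub_mem (H.F1_le_adjoin H.x_mem) (Subalgebra.algebraMap_mem _ a)

theorem inS_x : InS v (Algebra.adjoin L (F1 : Set F)) (x - algebraMap L F a) x :=
  ⟨a, 1, Loc.of_mem (Subalgebra.one_mem _), by ring⟩

/-- Claim A: rational functions of `x` with coefficients in `K1`. -/
theorem inS_of_mem_adjoin_simple {e : F} (he : e ∈ IntermediateField.adjoin K1 {x}) :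
    InS v (Algebra.adjoin L (F1 : Set F)) (x - algebraMap L F a) e := by
  have hu := H.u_mem ha
  induction he using IntermediateField.adjoin_induction with
  | mem y hy =>
    rw [Set.mem_singleton_iff.mp hy]
    exact H.inS_x ha
  | algebraMap k =>
    rw [IsScalarTower.algebraMap_apply K1 L F]
    exact InS.const _
  | add y z _ _ hy hz => exact hy.add hz
  | inv y hy ih =>
    rcases eq_or_ne y 0 with rfl | hy0
    · simpa using InS.zero (v := v) (R0 := Algebra.adjoin L (F1 : Set F))
        (u := x - algebraMap L F a)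
    · have hyF1 : y ∈ F1 := H.adjoin_simple_le hy
      exact ih.inv H.adjoin_le_val ha (H.F1_le_adjoin hyF1) hy0 (H.generic y hyF1 hy0)
  | mul y z _ _ hy hz => exact hy.mul hu hz

/-- (b1): every element of `F1` is congruent to a constant modulo `u`. -/
theorem inS_of_mem_F1 {h : F} (hh : h ∈ F1) :
    InS v (Algebra.adjoin L (F1 : Set F)) (x - algebraMap L F a) h := by
  set E := IntermediateField.adjoin K1 {x} with hE
  set R0 := Algebra.adjoin L (F1 : Set F) with hR0def
  haveI : CharZero F := charZero_of_injective_algebraMap (algebraMap K1 F).injective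
  haveI : CharZero E := charZero_of_injective_algebraMap (algebraMap K1 E).injective
  have hint : IsIntegral E h := (H.algebraic h hh).isIntegral
  set q := minpoly E h with hq
  have hsepq : q.Separable := (minpoly.irreducible hint).separable
  have hER : ∀ e : E, (e : F) ∈ R0 := fun e => H.F1_le_adjoin (H.adjoin_simple_le e.2)
  let ι : E →+* R0 := (algebraMap E F).codRestrict R0 hER
  have hι : ∀ e : E, ((ι e : R0) : F) = (e : F) := fun e => rfl
  have hcomp : (R0.val : R0 →+* F).comp ι = algebraMap E F := RingHom.ext fun e => rfl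
  let h₀ : R0 := ⟨h, H.F1_le_adjoin hh⟩
  have heval : ∀ p : Polynomial E, (((p.map ι).eval h₀ : R0) : F) = aeval h p := by
    intro p
    rw [Polynomial.eval_map]
    have := Polynomial.hom_eval₂ p ι (R0.val : R0 →+* F) h₀
    rw [hcomp] at this
    exact this
  have hroot : (q.map ι).eval h₀ = 0 := by
    apply Subtype.ext
    rw [heval]
    exact minpoly.aeval E h
  have hderiv : (((q.map ι).derivative.eval h₀ : R0) : F) = aeval h q.derivative := by
    rw [Polynomial.derivative_map, heval]
  have hd0 : aeval h q.derivative ≠ 0 :=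
    hsepq.aeval_derivative_ne_zero (minpoly.aeval E h)
  have hdF1 : aeval h q.derivative ∈ F1 := by
    rw [Polynomial.aeval_eq_sum_range]
    refine sum_mem fun i _ => ?_
    rw [Algebra.smul_def]
    exact mul_mem (H.adjoin_simple_le (q.derivative.coeff i).2) (pow_mem hh i)
  refine InS.of_root (v := v) (R0 := R0) H.adjoin_le_val H.deg_one (H.u_mem ha) ha (q.map ι)
    (fun i => ?_) h₀ hroot (by rw [hderiv]; exact hd0)
    (by rw [hderiv]; exact H.generic _ hdF1 hd0)
  rw [Polynomial.coeff_map, hι]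
  exact H.inS_of_mem_adjoin_simple ha (q.coeff i).2

/-- (b2): every element of `L · F1` is congruent to a constant modulo `u`. -/
theorem inS_of_mem_adjoin {g : F} (hg : g ∈ Algebra.adjoin L (F1 : Set F)) :
    InS v (Algebra.adjoin L (F1 : Set F)) (x - algebraMap L F a) g := by
  have hu := H.u_mem ha
  induction hg using Algebra.adjoin_induction with
  | mem h hh => exact H.inS_of_mem_F1 ha hh
  | algebraMap c => exact InS.const c
  | add f g _ _ hf hg => exact hf.add hg
  | mul f g _ _ hf hg => exact hf.mul hu hg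

/-- The hypotheses of the abstract local statement hold at a place of generic type. -/
theorem derLocalData (hu0 : x - algebraMap L F a ≠ 0) :
    DerLocalData v D (Algebra.adjoin L (F1 : Set F)).toSubring (x - algebraMap L F a) where
  isDer := H.isDer
  le_val := H.adjoin_le_val
  stable := H.adjoin_stable
  frac := H.frac
  u_mem := H.u_mem ha
  u_pos := ha.resolve_left hu0
  gen := by
    intro g hg hpos
    obtain ⟨r, ⟨a', ha', b, hb, hb0, hbo, hab⟩, hgr⟩ :=
      (H.inS_of_mem_adjoin ha hg).exists_mul_of_pos H.adjoin_le_val ha (Or.inr hpos)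
    refine ⟨a', ha', b, hb, hb0, hbo, ?_⟩
    rw [hgr, mul_assoc, hab]

end WithValue

/-- **DER-1, generic case.**  At a place of generic type a coefficientwise derivation lowers
the order by at most one, and preserves the units. -/
theorem ord_sub_one_le_ord_der {f : F} (hf : f ≠ 0) (hDf : D f ≠ 0) :
    v.ord f - 1 ≤ v.ord (D f) := by
  obtain ⟨a, ha, hu0⟩ := H.exists_value
  refine (H.derLocalData ha hu0).ord_sub_one_le_ord_der ?_ hf hDf
  obtain ⟨c', hc'⟩ := H.der_const a
  rw [map_sub, H.der_F1 x H.x_mem, zero_sub, hc']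
  exact neg_mem (v.algebraMap_mem' c')

theorem der_mem_of_ord_eq_zero {f : F} (hf : f ≠ 0) (hord : v.ord f = 0) :
    D f ∈ v.toValuationSubring := by
  obtain ⟨a, ha, hu0⟩ := H.exists_value
  exact (H.derLocalData ha hu0).der_mem_of_ord_eq_zero hf hord

/-- By-product: a place of generic type is unramified over every nonconstant `x ∈ F1`. -/
theorem exists_ord_sub_eq_one : ∃ a : L, v.ord (x - algebraMap L F a) = 1 := by
  obtain ⟨a, ha, hu0⟩ := H.exists_value
  exact ⟨a, (H.derLocalData ha hu0).ord_u⟩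

end GenericSetup

end GenericCase

/-! ### The constant case -/

section ConstCase

variable {L F : Type*} [Field L] [Field F] [Algebra L F]

/-- The situation at a constant (`K1`-rational) place `v = bcPl Q`: `A1 ⊆ F` is the image of the
valuation ring of `Q`, `t ∈ A1` the image of a uniformiser at `Q`; every element of `A1` is a
constant plus a multiple of `t`. -/
structure ConstSetup (v : Place L F) (D : F →+ F) (A1 : Subring F) (t : F) : Prop where
  isDer : IsDer D
  der_A1 : ∀ h ∈ A1, D h = 0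
  der_const : ∀ c : L, ∃ c' : L, D (algebraMap L F c) = algebraMap L F c'
  le_val : ∀ h ∈ A1, h ∈ v.toValuationSubring
  t_mem : t ∈ A1
  t_pos : 0 < v.ord t
  decomp : ∀ h ∈ A1, ∃ c : L, ∃ h' ∈ A1, h = algebraMap L F c + t * h'
  frac : ∀ f : F, ∃ g ∈ Algebra.adjoin L (A1 : Set F), ∃ h ∈ Algebra.adjoin L (A1 : Set F),
    h ≠ 0 ∧ f * h = g

namespace ConstSetup

variable {v : Place L F} {D : F →+ F} {A1 : Subring F} {t : F} (H : ConstSetup v D A1 t)

include H

theorem adjoin_le_val : ∀ g ∈ Algebra.adjoin L (A1 : Set F), g ∈ v.toValuationSubring := by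
  intro g hg
  induction hg using Algebra.adjoin_induction with
  | mem h hh => exact H.le_val h hh
  | algebraMap c => exact v.algebraMap_mem' c
  | add f g _ _ hf hg => exact add_mem hf hg
  | mul f g _ _ hf hg => exact mul_mem hf hg

theorem adjoin_stable : ∀ g ∈ Algebra.adjoin L (A1 : Set F),
    D g ∈ Algebra.adjoin L (A1 : Set F) := by
  intro g hg
  induction hg using Algebra.adjoin_induction with
  | mem h hh =>
    rw [H.der_A1 h hh]
    exact zero_mem _
  | algebraMap c =>
    obtain ⟨c', hc'⟩ := H.der_const c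
    rw [hc']
    exact Subalgebra.algebraMap_mem _ c'
  | add f g _ _ hf hg =>
    rw [map_add]
    exact add_mem hf hg
  | mul f g hf' hg' hf hg =>
    rw [H.isDer.leibniz]
    exact add_mem (mul_mem hf' hg) (mul_mem hg' hf)

theorem t_mem_adjoin : t ∈ Algebra.adjoin L (A1 : Set F) := Algebra.subset_adjoin H.t_mem

/-- (a1): every element of `L · A1` is a constant plus a multiple of `t`. -/
theorem exists_decomp : ∀ g ∈ Algebra.adjoin L (A1 : Set F),
    ∃ c : L, ∃ g' ∈ Algebra.adjoin L (A1 : Set F), g = algebraMap L F c + t * g' := by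
  intro g hg
  have ht := H.t_mem_adjoin
  induction hg using Algebra.adjoin_induction with
  | mem h hh =>
    obtain ⟨c, h', hh', e⟩ := H.decomp h hh
    exact ⟨c, h', Algebra.subset_adjoin hh', e⟩
  | algebraMap c => exact ⟨c, 0, zero_mem _, by simp⟩
  | add f g _ _ hf hg =>
    obtain ⟨c, f', hf', e⟩ := hf
    obtain ⟨c', g', hg', e'⟩ := hg
    exact ⟨c + c', f' + g', add_mem hf' hg', by rw [e, e', map_add]; ring⟩
  | mul f g _ _ hf hg =>
    obtain ⟨c, f', hf', e⟩ := hf
    obtain ⟨c', g', hg', e'⟩ := hg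
    refine ⟨c * c', algebraMap L F c * g' + algebraMap L F c' * f' + t * (f' * g'),
      add_mem (add_mem (mul_mem (Subalgebra.algebraMap_mem _ c) hg')
        (mul_mem (Subalgebra.algebraMap_mem _ c') hf')) (mul_mem ht (mul_mem hf' hg')), ?_⟩
    rw [e, e', map_mul]
    ring

/-- The hypotheses of the abstract local statement hold at a constant place. -/
theorem derLocalData : DerLocalData v D (Algebra.adjoin L (A1 : Set F)).toSubring t where
  isDer := H.isDer
  le_val := H.adjoin_le_val
  stable := H.adjoin_stable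
  frac := H.frac
  u_mem := H.t_mem_adjoin
  u_pos := H.t_pos
  gen := by
    intro g hg hpos
    obtain ⟨c, g', hg', e⟩ := H.exists_decomp g hg
    have hc : c = 0 := by
      have h1 : Pos v (algebraMap L F c) := by
        have e' : algebraMap L F c = g - t * g' := by rw [e]; ring
        rw [e']
        have hg1 : Pos v g := Or.inr hpos
        have ht1 : Pos v t := Or.inr H.t_pos
        exact hg1.sub (ht1.mul (H.adjoin_le_val g' hg'))
      exact h1.eq_zero_of_algebraMap
    refine ⟨g', hg', 1, Subalgebra.one_mem _, one_ne_zero, v.ord_one, ?_⟩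
    rw [e, hc, map_zero, zero_add, mul_one]

/-- **DER-1, constant case.**  At a constant place a coefficientwise derivation does not lower
the order. -/
theorem ord_le_ord_der {f : F} (hf : f ≠ 0) (hDf : D f ≠ 0) : v.ord f ≤ v.ord (D f) :=
  H.derLocalData.ord_le_ord_der (H.der_A1 t H.t_mem) hf hDf

end ConstSetup

end ConstCase

end Fermat.Agent.S17.H800
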