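import Mathlib
import Fermat.Agent.S17.H797.DerDefs
import Fermat.Agent.S17.H800.DerLocal
import Fermat.Agent.S18.H65.ModFinite
import Fermat.Agent.S29.H882.Inter

/-!
# S17 / G-DIV, piece DER-b (helper800): places of generic type

`stmtDERb : StmtDERb N L` (frozen shape of `S17/H797/DerDefs.lean`), by instantiating the abstract
`GenericSetup` of `S17/H800/DerLocal.lean` with `K1 = ℚ`, `F1 =` the image of the functions with
rational `q`-expansion, `x = t = j`.

Inputs: `F₀` is finite over `ℚ(j)` (`S18/H65/ModFinite`), `F_L = Frac (L · F₀)`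
(`S29/H882/Inter`).
-/

set_option autoImplicit false
set_option linter.unusedSectionVars false

noncomputable section

open AlgebraicCurve ModularCurve

namespace Fermat.Agent.S17.H800

open Fermat.Agent.Lib.RR Fermat.Agent.S17.GDiv Fermat.Agent.S17.H797

section Transport

/-- Algebraicity over a simple extension is transported by ring homomorphisms compatible with
the structure maps. -/
theorem isAlgebraic_adjoin_simple_map {K A B : Type*} [Field K] [Field A] [Field B]
    [Algebra K A] [Algebra K B] (φ : A →+* B)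
    (hφ : ∀ r : K, φ (algebraMap K A r) = algebraMap K B r) {x u : A}
    (h : IsAlgebraic (IntermediateField.adjoin K {x}) u) :
    IsAlgebraic (IntermediateField.adjoin K {φ x}) (φ u) := by
  let ψ : A →ₐ[K] B := { φ with commutes' := hφ }
  have hψ : ∀ a : A, ψ a = φ a := fun _ => rfl
  have hmem : ∀ y : IntermediateField.adjoin K {x},
      φ (y : A) ∈ IntermediateField.adjoin K {φ x} := by
    intro y
    have h1 : ψ (y : A) ∈ (IntermediateField.adjoin K {x}).map ψ := ⟨y, y.2, rfl⟩
    rwa [IntermediateField.adjoin_map, Set.image_singleton, hψ, hψ] at h1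
  let φ' : IntermediateField.adjoin K {x} →+* IntermediateField.adjoin K {φ x} :=
    { toFun := fun y => ⟨φ (y : A), hmem y⟩
      map_one' := Subtype.ext (by simp)
      map_mul' := fun a b => Subtype.ext (by simp)
      map_zero' := Subtype.ext (by simp)
      map_add' := fun a b => Subtype.ext (by simp) }
  have hint : IsIntegral (IntermediateField.adjoin K {x}) u := isAlgebraic_iff_isIntegral.mp h
  have := IsIntegral.map_of_comp_eq φ' φ (by ext; rfl) hint
  exact this.isAlgebraic

/-- The function field over `k` is algebraic over `k(j)`, transported along a ring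
homomorphism. -/
theorem isAlgebraic_map_fullC {k : Type*} [Field k] (N : ℕ) [NeZero N]
    (hchar : ∀ p : ℕ, p.Prime → p ∣ N → (p : k) ≠ 0) {B : Type*} [Field B] [Algebra k B]
    (φ : modularFunctionFieldFullC k N →+* B)
    (hφ : ∀ r : k, φ (algebraMap k (modularFunctionFieldFullC k N) r) = algebraMap k B r)
    (x : modularFunctionFieldFullC k N) (hx : (x : LaurentSeries k) = jqModC k)
    (u : modularFunctionFieldFullC k N) :
    IsAlgebraic (IntermediateField.adjoin k {φ x}) (φ u) := by
  obtain ⟨-, hfin⟩ := Fermat.Agent.S18.H65.modFinite' k N hchar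
  have hx' : x = ⟨jqModC k, jqModC_mem_full k N⟩ := Subtype.ext hx
  subst hx'
  exact isAlgebraic_adjoin_simple_map φ hφ ((Algebra.IsAlgebraic.of_finite _ _).isAlgebraic u)

end Transport

section DerB

variable {N : ℕ} [NeZero N] {L : Type} [Field L] [Algebra ℚ L]

/-- The `ℚ`-algebra structure of `F_L` (through `L`). -/
@[reducible] def algQFL (N : ℕ) (L : Type) [Field L] [Algebra ℚ L] : Algebra ℚ (FL N L) :=
  ((algebraMap L (FL N L)).comp (algebraMap ℚ L)).toAlgebra

attribute [local instance] algQFL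

theorem isScalarTower_QFL (N : ℕ) (L : Type) [Field L] [Algebra ℚ L] :
    @IsScalarTower ℚ L (FL N L) _ _ (algQFL N L).toSMul :=
  IsScalarTower.of_algebraMap_eq (fun _ => rfl)

attribute [local instance] isScalarTower_QFL

/-- `bcQ` as a ring homomorphism. -/
def bcQRingHom (N : ℕ) (L : Type) [Field L] [Algebra ℚ L] :
    modularFunctionFieldFull N →+* FL N L where
  toFun := bcQ N L
  map_one' := Subtype.ext (by simp)
  map_mul' a b := Subtype.ext (by simp)
  map_zero' := Subtype.ext (by simp)
  map_add' a b := Subtype.ext (by simp)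

theorem bcQRingHom_apply (N : ℕ) (L : Type) [Field L] [Algebra ℚ L]
    (u : modularFunctionFieldFull N) : bcQRingHom N L u = bcQ N L u := rfl

/-- The image of the functions with rational `q`-expansion. -/
def F1Q (N : ℕ) (L : Type) [Field L] [Algebra ℚ L] : IntermediateField ℚ (FL N L) :=
  Subfield.toIntermediateField (bcQRingHom N L).fieldRange (fun r =>
    ⟨(r : modularFunctionFieldFull N), by
      rw [map_ratCast]
      exact (eq_ratCast (algebraMap ℚ (FL N L)) r).symm⟩)

theorem mem_F1Q (N : ℕ) (L : Type) [Field L] [Algebra ℚ L] {h : FL N L} :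
    h ∈ F1Q N L ↔ ∃ u : modularFunctionFieldFull N, bcQ N L u = h :=
  Iff.rfl

theorem bcQ_mem_F1Q (N : ℕ) (L : Type) [Field L] [Algebra ℚ L]
    (u : modularFunctionFieldFull N) : bcQ N L u ∈ F1Q N L := ⟨u, rfl⟩

theorem tL_not_const : tL N L ∉ Set.range (algebraMap L (FL N L)) := by
  rintro ⟨c, hc⟩
  have h1 : ((tL N L : FL N L) : LaurentSeries L).coeff (-1) = 1 := by
    show (coeffEmb L jq).coeff (-1) = 1
    rw [coeffEmb_coeff, coeff_jq_neg_one, map_one]
  rw [← hc] at h1
  have h2 : ((algebraMap L (FL N L) c : FL N L) : LaurentSeries L)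
      = algebraMap L (LaurentSeries L) c := rfl
  rw [h2, algebraMap_laurentSeries_eq_single, HahnSeries.coeff_single_of_ne (by decide)] at h1
  exact zero_ne_one h1

theorem isAlgebraic_bcQ (u : modularFunctionFieldFull N) :
    IsAlgebraic (IntermediateField.adjoin ℚ {tL N L}) (bcQ N L u) := by
  have hchar : ∀ p : ℕ, p.Prime → p ∣ N → (p : ℚ) ≠ 0 :=
    fun p hp _ => by exact_mod_cast hp.ne_zero
  have key := @isAlgebraic_map_fullC ℚ _ N _ hchar (FL N L) _ (algQFL N L) (bcQRingHom N L)
    (by intro r; simp only [eq_ratCast]; exact map_ratCast (bcQRingHom N L) r) (jQ N) rfl u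
  exact key

theorem frac_F1Q_aux {r : LaurentSeries L} (hr : r ∈ Fermat.Agent.S29.H882.spanImage L
    (modularFunctionFieldFull N)) :
    ∃ r' : FL N L, r' ∈ Algebra.adjoin L (F1Q N L : Set (FL N L)) ∧
      (r' : LaurentSeries L) = r := by
  refine Submodule.span_induction (p := fun r _ => ∃ r' : FL N L,
    r' ∈ Algebra.adjoin L (F1Q N L : Set (FL N L)) ∧ (r' : LaurentSeries L) = r) ?_ ?_ ?_ ?_ hr
  · rintro _ ⟨u, hu, rfl⟩
    exact ⟨bcQ N L ⟨u, hu⟩, Algebra.subset_adjoin (bcQ_mem_F1Q N L _), rfl⟩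
  · exact ⟨0, zero_mem _, rfl⟩
  · rintro a b _ _ ⟨a', ha', rfl⟩ ⟨b', hb', rfl⟩
    exact ⟨a' + b', add_mem ha' hb', rfl⟩
  · rintro c a _ ⟨a', ha', rfl⟩
    exact ⟨algebraMap L (FL N L) c * a', mul_mem (Subalgebra.algebraMap_mem _ c) ha',
      (Fermat.Agent.S24.Deg457.hsmul_eq_algebraMap_mul c (a' : LaurentSeries L)).symm⟩

theorem frac_F1Q (f : FL N L) :
    ∃ g ∈ Algebra.adjoin L (F1Q N L : Set (FL N L)),
      ∃ h ∈ Algebra.adjoin L (F1Q N L : Set (FL N L)), h ≠ 0 ∧ f * h = g := by
  obtain ⟨r, hr, s, hs, hrs⟩ := Fermat.Agent.S29.H882.exists_div_of_mem_laurentBaseChange f.2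
  obtain ⟨r', hr', rfl⟩ := frac_F1Q_aux hr
  obtain ⟨s', hs', rfl⟩ := frac_F1Q_aux hs
  by_cases hs0 : s' = 0
  · refine ⟨0, zero_mem _, 1, one_mem _, one_ne_zero, ?_⟩
    rw [mul_one]
    apply Subtype.ext
    rw [hrs, hs0]
    simp
  · refine ⟨r', hr', s', hs', hs0, ?_⟩
    apply Subtype.ext
    have hs0' : (s' : LaurentSeries L) ≠ 0 := fun h => hs0 (Subtype.ext h)
    show (f : LaurentSeries L) * (s' : LaurentSeries L) = r'
    rw [hrs]
    field_simp

variable [FF1 L (FL N L)]

/-- The generic setup at a place of generic type. -/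
theorem genericSetup (d : Derivation ℚ L L) (P : Place L (FL N L)) (hP : ¬ IsConstType P) :
    GenericSetup P (DL d) (F1Q N L) (tL N L) where
  deg_one := deg_eq_one P
  isDer := ⟨DL_mul d⟩
  der_F1 := by
    rintro _ ⟨u, rfl⟩
    exact DL_bcQ d u
  der_const := fun c => ⟨d c, DL_algebraMap d c⟩
  generic := by
    rintro _ ⟨u, rfl⟩ -
    by_contra h
    exact hP ⟨u, h⟩
  x_mem := bcQ_mem_F1Q N L _
  x_nonconst := tL_not_const
  algebraic := by
    rintro _ ⟨u, rfl⟩
    exact isAlgebraic_bcQ u
  frac := frac_F1Q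

/-- **DER-b**. -/
theorem stmtDERb : StmtDERb N L := by
  intro d P hP
  have H := genericSetup d P hP
  obtain ⟨a, ha, hu0⟩ := H.exists_value
  refine ⟨⟨a, ha⟩, fun h => ?_⟩
  by_cases hD : DL d h = 0
  · exact Or.inl hD
  refine Or.inr ?_
  have hh : h ≠ 0 := by
    rintro rfl
    exact hD (map_zero _)
  refine ⟨H.ord_sub_one_le_ord_der hh hD, fun hord => ?_, fun hval => ?_⟩
  · exact ord_nonneg_of_mem P (H.der_mem_of_ord_eq_zero hh hord)
  · have hda : d a = 0 := hval a ha
    refine (H.derLocalData ha hu0).ord_le_ord_der ?_ hh hD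
    rw [map_sub, DL_algebraMap, hda, map_zero, sub_zero]
    exact DL_bcQ d (jQ N)

end DerB

end Fermat.Agent.S17.H800
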