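/-
S17 row, piece G-TORS / P1 (helper800): the Taylor embedding of `FF N = ℚ̄(X₀(N))` at a point
`τ₀ ∈ ℍ` (exact statement `exists_tay` of `origin/helper257:Fermat/Agent/S17/GTors/Skeleton.lean`).

* `realHom N : RN N →+* holoRing` : the realisation of `ℚ̄[j(q^d) : d ∣ N]` by good holomorphic
  functions (choice + uniqueness of `q`-expansions), an injective ring hom;
* `tay N τ₀ : FF N →+* ℂ((z))` : its Taylor expansion at `τ₀`, extended to the fraction field;
* `tay_eq_of_realises` : if `G` realises `u` then `tay N τ₀ u` is the Taylor series of `G`;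
* `exists_tay` : the packaged statement (P1).
-/
import Fermat.Agent.S29.M4b.H822.Basic
import Fermat.Agent.S24.H624.Laurent
import Fermat.Agent.S24.Mod.H997Frac

set_option autoImplicit false
set_option linter.unusedSectionVars false

noncomputable section

open ModularCurve AlgebraicCurve CongruenceSubgroup UpperHalfPlane
open scoped MatrixGroups Manifold

namespace Fermat.Agent.S17.H800

open Fermat.Agent.S24 Fermat.Agent.S29 Fermat.Agent.S29.M4b

variable (N : ℕ) [NeZero N]

/-! ### Realisations: ring operations -/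

theorem realises_zero' : Realises N (0 : FF N) (0 : ℍ → ℂ) := by
  refine H822.realises_of_hasQExp (Subalgebra.zero_mem _) ?_
  have := H708.HasQExp.zero 1
  simpa using this

theorem realises_one' : Realises N (1 : FF N) (1 : ℍ → ℂ) := by
  refine H822.realises_of_hasQExp (Subalgebra.one_mem _) ?_
  have := H708.HasQExp.one 1
  simpa using this

variable {N} in
theorem realises_add' {u v : FF N} {G H : ℍ → ℂ} (hu : Realises N u G) (hv : Realises N v H) :
    Realises N (u + v) (G + H) := by
  refine H822.realises_of_hasQExp ((H648.goodRing N).add_mem hu.1 hv.1) ?_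
  have := (H822.realises_hasQExp hu).add (H822.realises_hasQExp hv)
  simpa using this

/-! ### The realisation ring hom -/

theorem exists_realises_inclRN (r : H997.RN N) :
    ∃ G : ℍ → ℂ, Realises N (H997.inclRN N r) G :=
  H822.exists_realises_of_mem_AK (a := H997.inclRN N r) r.2

/-- The good function realising `r ∈ ℚ̄[j(q^d) : d ∣ N]`. -/
def realFun (r : H997.RN N) : ℍ → ℂ := (exists_realises_inclRN N r).choose

theorem realises_realFun (r : H997.RN N) : Realises N (H997.inclRN N r) (realFun N r) :=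
  (exists_realises_inclRN N r).choose_spec

variable {N} in
theorem realFun_eq {r : H997.RN N} {G : ℍ → ℂ} (h : Realises N (H997.inclRN N r) G) :
    realFun N r = G :=
  H822.realises_unique_right (realises_realFun N r) h

theorem realFun_mdiff (r : H997.RN N) : MDifferentiable 𝓘(ℂ) 𝓘(ℂ) (realFun N r) :=
  (realises_realFun N r).1.1

theorem inclRN_one' : H997.inclRN N 1 = 1 := Subtype.ext rfl

theorem inclRN_zero' : H997.inclRN N 0 = 0 := Subtype.ext rfl

theorem inclRN_mul' (r s : H997.RN N) :
    H997.inclRN N (r * s) = H997.inclRN N r * H997.inclRN N s := Subtype.ext rfl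

theorem inclRN_add' (r s : H997.RN N) :
    H997.inclRN N (r + s) = H997.inclRN N r + H997.inclRN N s := Subtype.ext rfl

theorem inclRN_eq_zero_iff {r : H997.RN N} : H997.inclRN N r = 0 ↔ r = 0 :=
  ⟨fun h => H997.inclRN_injective N (h.trans (inclRN_zero' N).symm),
    fun h => by rw [h, inclRN_zero']⟩

/-- The realisation `ℚ̄[j(q^d) : d ∣ N] → {holomorphic functions on ℍ}`. -/
def realHom : H997.RN N →+* H624.holoRing where
  toFun r := ⟨realFun N r, realFun_mdiff N r⟩
  map_one' := Subtype.ext (realFun_eq (by rw [inclRN_one']; exact realises_one' N))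
  map_zero' := Subtype.ext (realFun_eq (by rw [inclRN_zero']; exact realises_zero' N))
  map_mul' r s := Subtype.ext (realFun_eq (by
    rw [inclRN_mul']; exact H822.realises_mul (realises_realFun N r) (realises_realFun N s)))
  map_add' r s := Subtype.ext (realFun_eq (by
    rw [inclRN_add']; exact realises_add' (realises_realFun N r) (realises_realFun N s)))

@[simp] theorem coe_realHom (r : H997.RN N) : ((realHom N r : H624.holoRing) : ℍ → ℂ)
    = realFun N r := rfl

theorem realHom_injective : Function.Injective (realHom N) := by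
  rw [injective_iff_map_eq_zero]
  intro r hr
  by_contra h0
  have h1 : H997.inclRN N r ≠ 0 := fun h => h0 ((inclRN_eq_zero_iff N).mp h)
  exact H822.realises_ne_zero (realises_realFun N r) h1 (congrArg Subtype.val hr)

/-! ### The Taylor embedding -/

theorem tayHom_injective (τ₀ : ℍ) :
    Function.Injective ((H624.taylorLaurent τ₀).comp (realHom N)) :=
  (H624.taylorLaurent_injective τ₀).comp (realHom_injective N)

/-- The Taylor embedding `ℚ̄(X₀(N)) → ℂ((z))` at `τ₀ ∈ ℍ` (`z = τ - τ₀`). -/
def tay (τ₀ : ℍ) : FF N →+* LaurentSeries ℂ :=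
  H997.liftF ((H624.taylorLaurent τ₀).comp (realHom N)) (tayHom_injective N τ₀)

theorem tay_inclRN (τ₀ : ℍ) (r : H997.RN N) :
    tay N τ₀ (H997.inclRN N r) = H624.taylorLaurent τ₀ (realHom N r) :=
  H997.liftF_inclRN _ _ r

variable {N} in
/-- If `G` realises `u`, then the Taylor embedding of `u` is the Taylor series of `G`. -/
theorem tay_eq_of_realises (τ₀ : ℍ) {u : FF N} {G : ℍ → ℂ} (h : Realises N u G) :
    tay N τ₀ u = H624.taylorLaurent τ₀ ⟨G, h.1.1⟩ := by
  obtain ⟨r, t, ht, hu⟩ := H997.exists_div_inclRN N u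
  have ht' : H997.inclRN N t ≠ 0 := fun h0 => ht ((inclRN_eq_zero_iff N).mp h0)
  have hmul : u * H997.inclRN N t = H997.inclRN N r := by
    rw [hu, div_mul_cancel₀ _ ht']
  -- `G * ρ t = ρ r`
  have h1 : Realises N (H997.inclRN N r) (G * realFun N t) := by
    rw [← hmul]
    exact H822.realises_mul h (realises_realFun N t)
  have h2 : realFun N r = G * realFun N t := realFun_eq h1
  have h3 : realHom N r = (⟨G, h.1.1⟩ : H624.holoRing) * realHom N t := Subtype.ext h2
  have h4 : tay N τ₀ u * tay N τ₀ (H997.inclRN N t) = tay N τ₀ (H997.inclRN N r) := by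
    rw [← map_mul, hmul]
  rw [tay_inclRN, tay_inclRN, h3, map_mul] at h4
  have h5 : H624.taylorLaurent τ₀ (realHom N t) ≠ 0 := by
    intro h0
    have := tayHom_injective N τ₀ (a₁ := t) (a₂ := 0) (by
      simpa using h0)
    exact ht this
  exact mul_right_cancel₀ h5 h4

theorem order_taylorLaurent (τ₀ : ℍ) {f : H624.holoRing} (hf : f ≠ 0) :
    (H624.taylorLaurent τ₀ f).order = ((H624.ordAt τ₀ (f : ℍ → ℂ)).toNat : ℤ) := by
  rw [H624.taylorLaurent_apply]
  refine H624.order_ofPowerSeries ?_
  rw [H624.order_taylorAt,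
    ENat.natCast_toNat (H624.ordAt_ne_top f.2 (fun h => hf (Subtype.ext h)) τ₀)]

variable {N} in
/-- The order of the Taylor embedding is the analytic order of vanishing. -/
theorem order_tay_of_realises (τ₀ : ℍ) {u : FF N} {G : ℍ → ℂ} (hu : u ≠ 0)
    (h : Realises N u G) :
    analyticOrderAt (G ∘ ofComplex) (τ₀ : ℂ) = (((tay N τ₀ u).order.toNat : ℕ) : ℕ∞) ∧
      0 ≤ (tay N τ₀ u).order := by
  have hG : G ≠ 0 := H822.realises_ne_zero h hu
  have hG' : (⟨G, h.1.1⟩ : H624.holoRing) ≠ 0 := fun h0 => hG (congrArg Subtype.val h0)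
  have hord := order_taylorLaurent τ₀ hG'
  rw [← tay_eq_of_realises τ₀ h] at hord
  have hne : H624.ordAt τ₀ G ≠ ⊤ := H624.ordAt_ne_top h.1.1 hG τ₀
  refine ⟨?_, ?_⟩
  · rw [hord, Int.toNat_natCast, ← H624.ordAt_def, ENat.natCast_toNat hne]
  · rw [hord]
    exact Int.natCast_nonneg _

/-- The Taylor embedding has order `0` on nonzero constants. -/
theorem order_tay_algebraMap (τ₀ : ℍ) {c : Kbar} (hc : c ≠ 0) :
    (tay N τ₀ (algebraMap Kbar (FF N) c)).order = 0 := by
  have hreal : ∀ d : Kbar, ∃ G, Realises N (algebraMap Kbar (FF N) d) G := fun d => by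
    have : algebraMap Kbar (FF N) d = H997.inclRN N (algebraMap Kbar (H997.RN N) d) :=
      ((H997.inclRN N).commutes d).symm
    rw [this]
    exact exists_realises_inclRN N _
  have hne : ∀ d : Kbar, d ≠ 0 → algebraMap Kbar (FF N) d ≠ 0 := fun d hd =>
    (map_ne_zero (algebraMap Kbar (FF N))).mpr hd
  obtain ⟨G, hG⟩ := hreal c
  obtain ⟨G', hG'⟩ := hreal c⁻¹
  have h1 := (order_tay_of_realises τ₀ (hne c hc) hG).2
  have h2 := (order_tay_of_realises τ₀ (hne c⁻¹ (inv_ne_zero hc)) hG').2
  have h3 : tay N τ₀ (algebraMap Kbar (FF N) c) * tay N τ₀ (algebraMap Kbar (FF N) c⁻¹) = 1 := by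
    rw [← map_mul, ← map_mul, mul_inv_cancel₀ hc, map_one, map_one]
  have h4 := congrArg HahnSeries.order h3
  rw [HahnSeries.order_mul ((map_ne_zero _).mpr (hne c hc))
    ((map_ne_zero _).mpr (hne c⁻¹ (inv_ne_zero hc))), HahnSeries.order_one] at h4
  omega

/-- **P1** (exact statement of the G-TORS sub-skeleton). For every `τ₀ ∈ ℍ` there is a ring
embedding `FF N → ℂ((z))`, of order `0` on `ℚ̄ˣ`, sending every `u` realised by a good function
`G` to an expansion whose order is the analytic order of `G` at `τ₀`. -/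
theorem exists_tay (τ₀ : ℍ) :
    ∃ φ : FF N →+* LaurentSeries ℂ,
      (∀ c : Kbar, c ≠ 0 → (φ (algebraMap Kbar (FF N) c)).order = 0) ∧
      ∀ (u : FF N) (G : ℍ → ℂ), u ≠ 0 → Realises N u G →
        analyticOrderAt (G ∘ ofComplex) (τ₀ : ℂ) = (((φ u).order.toNat : ℕ) : ℕ∞) ∧
          0 ≤ (φ u).order :=
  ⟨tay N τ₀, fun _ hc => order_tay_algebraMap N τ₀ hc,
    fun _ _ hu h => order_tay_of_realises τ₀ hu h⟩

end Fermat.Agent.S17.H800
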