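/-
S17 row, piece G-TORS (helper800): the skeleton statement `torsion_finite`
(`Finite (Pic0.torsion ℚ̄ (ℚ̄(X₀(N))) n)`) from the landed S30 pieces.

`Fermat.Agent.S30.Fin.finite_torsion_of_pieces` (helper49, on main) proves finiteness of
`{x | (m : ℤ) • x = 0}` from the four statements `ClearStatement`, `NonzeroStatement`,
`OrderStatement`, `UniqStatement`.  `UniqStatement` is the landed `K4-UNIQ` (`isKum_unique`).
Here: the adapter to the exact shape used by the S17 skeleton, with the remaining three
statements as explicit hypotheses, and `UniqStatement` discharged.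
-/
import Fermat.Agent.S30.Fin.Onto
import Fermat.Agent.S29.M4b.H822.K4Uniq

set_option autoImplicit false

noncomputable section

open ModularCurve AlgebraicCurve

namespace Fermat.Agent.S17.H800

open Fermat.Agent.S24 Fermat.Agent.S29 Fermat.Agent.S29.M4b Fermat.Agent.S30.Fin

/-- Adapter: finiteness of the set `{x | (n : ℤ) • x = 0}` is finiteness of the subgroup
`Pic0.torsion` (any function field). -/
theorem finite_torsion_of_setFinite {K F : Type*} [Field K] [Field F] [Algebra K F] (n : ℕ)
    (h : {x : Pic0 K F | (n : ℤ) • x = 0}.Finite) : Finite (Pic0.torsion K F n) := by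
  have : ((Pic0.torsion K F n : AddSubgroup (Pic0 K F)) : Set (Pic0 K F))
      = {x : Pic0 K F | (n : ℤ) • x = 0} := by
    ext x
    exact Pic0.mem_torsion
  exact (this ▸ h : ((Pic0.torsion K F n : AddSubgroup (Pic0 K F)) : Set (Pic0 K F)).Finite)

/-- `UniqStatement` of S30/Fin is the landed piece `K4-UNIQ`. -/
theorem uniqStatement (N m : ℕ) [NeZero N] [NeZero m] : UniqStatement N m :=
  fun _ _ _ h h' => H822.isKum_unique N m h h'

/-- **G-TORS from the three open inputs** (pole clearing, non-vanishing, dictionary). -/
theorem torsion_finite_of (N : ℕ) [NeZero N] (n : ℕ) (hn : n ≠ 0)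
    (hclear : ClearStatement N n) (hnz : NonzeroStatement N) (hord : OrderStatement N n) :
    Finite (Pic0.torsion (AlgebraicClosure ℚ) (modularFunctionFieldBar N) n) := by
  have : NeZero n := ⟨hn⟩
  exact finite_torsion_of_setFinite n
    (finite_torsion_of_pieces N n hclear hnz hord (uniqStatement N n))

end Fermat.Agent.S17.H800
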